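import Mathlib

/-!
# Kummer's descent (second case of FLT) in an abstract principal ideal domain

`R` is a PID with a primitive `p`-th root of unity `ζ` (`p` an odd prime) such that
`π = ζ - 1` is prime, `R ⧸ (π)` has `p` elements and `p ∣ π ^ (p - 1)`.
Assuming Kummer's lemma (`KummerProp`), the generalized Fermat equation
`x ^ p + y ^ p = ε * π ^ (p * (m + 1)) * z ^ p` has no solution with `x, y` coprime and
`π ∤ y`, `π ∤ z`.
-/

set_option linter.unusedSectionVars false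
set_option linter.style.haveILetI false
set_option linter.unusedVariables false

open Polynomial Finset

namespace Fermat.Agent.H9

variable {R : Type*} [CommRing R] [IsDomain R]

/-- Kummer's lemma as a property of the triple `(R, p)`. -/
def KummerProp (R : Type*) [CommRing R] (p : ℕ) : Prop :=
  ∀ u : Rˣ, (∃ n : ℤ, (p : R) ∣ (u : R) - (n : R)) → ∃ v : Rˣ, u = v ^ p

/-- The generalized Fermat equation with exponent `m` of `π = ζ - 1`. -/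
def GenSol (ζ : R) (p m : ℕ) : Prop :=
  ∃ (x y z : R) (ε : Rˣ), IsCoprime x y ∧ ¬ (ζ - 1) ∣ y ∧ ¬ (ζ - 1) ∣ z ∧
    x ^ p + y ^ p = ε * (ζ - 1) ^ (p * m) * z ^ p

section basic

variable {p : ℕ} {ζ : R}

/-- For an integer `n`, `π ∣ n` iff `p ∣ n`. -/
lemma pi_dvd_intCast_iff (hp : p.Prime) (hπ : Prime (ζ - 1)) (hπp : (ζ - 1) ∣ (p : R)) {n : ℤ} :
    (ζ - 1) ∣ (n : R) ↔ (p : ℤ) ∣ n := by
  constructor
  · intro h
    by_contra hn
    have hcop : IsCoprime (p : ℤ) n :=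
      (Prime.coprime_iff_not_dvd (Nat.prime_iff_prime_int.1 hp)).2 hn
    obtain ⟨a, b, hab⟩ := hcop
    have h1 : (ζ - 1) ∣ ((a * p + b * n : ℤ) : R) := by
      push_cast
      exact dvd_add (Dvd.dvd.mul_left hπp _) (Dvd.dvd.mul_left h _)
    rw [hab] at h1
    exact hπ.not_dvd_one (by simpa using h1)
  · rintro ⟨k, rfl⟩
    push_cast
    exact Dvd.dvd.mul_right hπp _

/-- Every element of `R` is congruent to an integer modulo `π`. -/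
lemma exists_int_sub_dvd (hp : p.Prime) (hπ : Prime (ζ - 1)) (hπp : (ζ - 1) ∣ (p : R))
    (hcard : Nat.card (R ⧸ Ideal.span {ζ - 1}) = p) (x : R) :
    ∃ n : ℤ, (ζ - 1) ∣ x - (n : R) := by
  haveI : Finite (R ⧸ Ideal.span {ζ - 1}) :=
    Nat.finite_of_card_ne_zero (by rw [hcard]; exact hp.ne_zero)
  let f : Fin p → R ⧸ Ideal.span {ζ - 1} := fun i => Ideal.Quotient.mk _ ((i : ℕ) : R)
  have hf : Function.Injective f := by
    intro i j hij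
    simp only [f] at hij
    rw [Ideal.Quotient.mk_eq_mk_iff_sub_mem, Ideal.mem_span_singleton] at hij
    have h2 : (ζ - 1) ∣ (((i : ℕ) : ℤ) - ((j : ℕ) : ℤ) : ℤ) := by
      push_cast
      exact hij
    rw [pi_dvd_intCast_iff hp hπ hπp] at h2
    have hi := i.2
    have hj := j.2
    apply Fin.ext
    have h4 : ((i : ℕ) : ℤ) % p = ((j : ℕ) : ℤ) % p := Int.emod_eq_emod_iff_emod_sub_eq_zero.2 (Int.emod_eq_zero_of_dvd h2)
    rw [Int.emod_eq_of_lt (by positivity) (by exact_mod_cast hi),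
      Int.emod_eq_of_lt (by positivity) (by exact_mod_cast hj)] at h4
    exact_mod_cast h4
  have hbij := hf.bijective_of_nat_card_le (by simp [hcard])
  obtain ⟨i, hi⟩ := hbij.2 (Ideal.Quotient.mk _ x)
  refine ⟨(i : ℕ), ?_⟩
  simp only [f] at hi
  rw [eq_comm, Ideal.Quotient.mk_eq_mk_iff_sub_mem, Ideal.mem_span_singleton] at hi
  simpa using hi

/-- If `x ≡ n mod π` with `n` an integer then `x ^ p ≡ n ^ p mod p`. -/
lemma natCast_dvd_pow_sub_pow (hp : p.Prime) (hpπ : (p : R) ∣ (ζ - 1) ^ (p - 1)) {x : R} {n : ℤ}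
    (h : (ζ - 1) ∣ x - (n : R)) : (p : R) ∣ x ^ p - (n : R) ^ p := by
  obtain ⟨t, ht⟩ := h
  have hx : x = (ζ - 1) * t + n := by rw [← ht]; ring
  rw [hx]
  apply hp.dvd_add_pow_sub_pow_of_dvd
  · rw [mul_pow]
    refine Dvd.dvd.mul_right (hpπ.trans (pow_dvd_pow _ (Nat.sub_le _ _))) _
  · exact dvd_mul_right _ _

end basic

section descent

variable {p : ℕ} {ζ : R}

/-- Distinct `p`-th roots of unity differ by a unit multiple of `π`. -/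
lemma exists_unit_sub_eq (hp : p.Prime) (hζ : IsPrimitiveRoot ζ p) {η₁ η₂ : R}
    (h₁ : η₁ ∈ nthRootsFinset p (1 : R)) (h₂ : η₂ ∈ nthRootsFinset p (1 : R)) (hne : η₁ ≠ η₂) :
    ∃ u : Rˣ, η₁ - η₂ = (ζ - 1) * u := by
  obtain ⟨u, hu⟩ := hζ.nthRootsFinset_pairwise_associated_sub_one_sub_of_prime hp h₁ h₂ hne
  exact ⟨u, hu.symm⟩

/-- Pigeonhole: some `x + η y` is divisible by `π ^ 2`. -/
lemma exists_root_sq_dvd (hp : p.Prime) (hζ : IsPrimitiveRoot ζ p) (hπ : Prime (ζ - 1))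
    (hcard : Nat.card (R ⧸ Ideal.span {ζ - 1}) = p) {x y : R} (hy : ¬ (ζ - 1) ∣ y)
    (hxy : (ζ - 1) ∣ x + y) : ∃ η ∈ nthRootsFinset p (1 : R), (ζ - 1) ^ 2 ∣ x + η * y := by
  classical
  have h1mem : (1 : R) ∈ nthRootsFinset p (1 : R) := one_mem_nthRootsFinset hp.pos
  have hdvd : ∀ η ∈ nthRootsFinset p (1 : R), (ζ - 1) ∣ x + η * y := by
    intro η hη
    have h1 : (ζ - 1) ∣ η - 1 := hζ.sub_one_dvd_sub hp hη h1mem
    have : x + η * y = (x + y) + (η - 1) * y := by ring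
    rw [this]; exact dvd_add hxy (Dvd.dvd.mul_right h1 _)
  choose! a ha using hdvd
  haveI : Finite (R ⧸ Ideal.span {ζ - 1}) :=
    Nat.finite_of_card_ne_zero (by rw [hcard]; exact hp.ne_zero)
  let f : (nthRootsFinset p (1 : R)) → R ⧸ Ideal.span {ζ - 1} :=
    fun η => Ideal.Quotient.mk _ (a η)
  have hf : Function.Injective f := by
    rintro ⟨η₁, h₁⟩ ⟨η₂, h₂⟩ h
    by_contra hne
    have hne' : η₁ ≠ η₂ := fun h => hne (Subtype.ext h)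
    simp only [f] at h
    rw [Ideal.Quotient.mk_eq_mk_iff_sub_mem, Ideal.mem_span_singleton] at h
    obtain ⟨u, hu⟩ := exists_unit_sub_eq hp hζ h₁ h₂ hne'
    have h3 : (ζ - 1) * (a η₁ - a η₂) = (ζ - 1) * (u * y) := by
      rw [mul_sub, ← ha η₁ h₁, ← ha η₂ h₂, ← mul_assoc, ← hu]; ring
    have h4 := mul_left_cancel₀ hπ.ne_zero h3
    rw [h4] at h
    exact hy (Units.dvd_mul_left.1 h)
  have hbij := hf.bijective_of_nat_card_le
    (by simp [hcard, hζ.card_nthRootsFinset])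
  obtain ⟨⟨η, hη⟩, h⟩ := hbij.2 0
  refine ⟨η, hη, ?_⟩
  simp only [f] at h
  rw [Ideal.Quotient.eq_zero_iff_dvd] at h
  rw [ha η hη, pow_two]
  exact mul_dvd_mul_left _ h

/-- The quotients `(x + η y) / π` are pairwise coprime. -/
lemma isCoprime_quot (hp : p.Prime) (hζ : IsPrimitiveRoot ζ p) (hπ : Prime (ζ - 1)) {x y : R}
    (hxy : IsCoprime x y) {η₁ η₂ a₁ a₂ : R} (h₁ : η₁ ∈ nthRootsFinset p (1 : R))
    (h₂ : η₂ ∈ nthRootsFinset p (1 : R)) (hne : η₁ ≠ η₂) (ha₁ : x + η₁ * y = (ζ - 1) * a₁)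
    (ha₂ : x + η₂ * y = (ζ - 1) * a₂) : IsCoprime a₁ a₂ := by
  obtain ⟨u, hu⟩ := exists_unit_sub_eq hp hζ h₁ h₂ hne
  have e1 : a₁ - a₂ = u * y := by
    apply mul_left_cancel₀ hπ.ne_zero
    rw [mul_sub, ← ha₁, ← ha₂, ← mul_assoc, ← hu]; ring
  have e2 : η₁ * a₂ - η₂ * a₁ = u * x := by
    apply mul_left_cancel₀ hπ.ne_zero
    have : (ζ - 1) * (η₁ * a₂ - η₂ * a₁) = η₁ * ((ζ - 1) * a₂) - η₂ * ((ζ - 1) * a₁) := by ring
    rw [this, ← ha₁, ← ha₂, ← mul_assoc, ← hu]; ring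
  obtain ⟨r, s, hrs⟩ := hxy
  refine ⟨(s - r * η₂) * ↑u⁻¹, (r * η₁ - s) * ↑u⁻¹, ?_⟩
  have e3 : (s - r * η₂) * ↑u⁻¹ * a₁ + (r * η₁ - s) * ↑u⁻¹ * a₂ =
      ↑u⁻¹ * (s * (a₁ - a₂) + r * (η₁ * a₂ - η₂ * a₁)) := by ring
  rw [e3, e1, e2]
  have e4 : (↑u⁻¹ : R) * (s * (↑u * y) + r * (↑u * x)) = (↑u⁻¹ * ↑u) * (r * x + s * y) := by ring
  rw [e4, hrs]; simp

/-- The descent step. -/
theorem genSol_descent [IsPrincipalIdealRing R] (hp : p.Prime) (hodd : p ≠ 2)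
    (hζ : IsPrimitiveRoot ζ p) (hπ : Prime (ζ - 1))
    (hcard : Nat.card (R ⧸ Ideal.span {ζ - 1}) = p) (hπp : (ζ - 1) ∣ (p : R))
    (hpπ : (p : R) ∣ (ζ - 1) ^ (p - 1)) (hK : KummerProp R p) {m : ℕ}
    (h : GenSol ζ p (m + 1)) : 1 ≤ m ∧ GenSol ζ p m := by
  classical
  obtain ⟨x, y₀, z, ε, hcop₀, hy₀, hz, heq₀⟩ := h
  have hp0 : 0 < p := hp.pos
  have hoddp : Odd p := hp.odd_of_ne_two hodd
  have h1mem : (1 : R) ∈ nthRootsFinset p (1 : R) := one_mem_nthRootsFinset hp.pos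
  -- Step (i): `π ∣ x + y₀`
  have hxy₀ : (ζ - 1) ∣ x + y₀ := by
    have h0 : (ζ - 1) ∣ ∏ η ∈ nthRootsFinset p (1 : R), (x + η * y₀) := by
      rw [← hζ.pow_add_pow_eq_prod_add_mul x y₀ hoddp, heq₀]
      exact Dvd.dvd.mul_right (Dvd.dvd.mul_left
        (dvd_pow_self _ (Nat.mul_ne_zero hp.ne_zero (Nat.succ_ne_zero m))) _) _
    obtain ⟨η, hη, hd⟩ := (hπ.dvd_finsetProd_iff _).1 h0
    have h1 : (ζ - 1) ∣ 1 - η := hζ.sub_one_dvd_sub hp h1mem hη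
    have e : x + y₀ = (x + η * y₀) + (1 - η) * y₀ := by ring
    rw [e]; exact dvd_add hd (Dvd.dvd.mul_right h1 _)
  -- Step (ii): normalisation
  obtain ⟨η₀, hη₀, hsq⟩ := exists_root_sq_dvd hp hζ hπ hcard hy₀ hxy₀
  have hη₀pow : η₀ ^ p = 1 := (mem_nthRootsFinset hp0 1).1 hη₀
  have hη₀unit : IsUnit η₀ := IsUnit.of_pow_eq_one hη₀pow hp.ne_zero
  obtain ⟨y, hydef⟩ : ∃ y, y = η₀ * y₀ := ⟨_, rfl⟩
  have hcop : IsCoprime x y := by
    rw [hydef]; exact (isCoprime_mul_unit_left_right hη₀unit x y₀).2 hcop₀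
  have hy : ¬ (ζ - 1) ∣ y := fun h => hy₀ (by rw [hydef] at h; exact hη₀unit.dvd_mul_left.1 h)
  have heq : x ^ p + y ^ p = ε * (ζ - 1) ^ (p * (m + 1)) * z ^ p := by
    rw [hydef, mul_pow, hη₀pow, one_mul, heq₀]
  rw [← hydef] at hsq
  -- Step (iii)
  have hdvd : ∀ η ∈ nthRootsFinset p (1 : R), (ζ - 1) ∣ x + η * y := by
    intro η hη
    have h1 : (ζ - 1) ∣ η - 1 := hζ.sub_one_dvd_sub hp hη h1mem
    have e : x + η * y = (x + y) + (η - 1) * y := by ring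
    rw [e]; exact dvd_add ((dvd_pow_self _ two_ne_zero).trans hsq) (Dvd.dvd.mul_right h1 _)
  choose! a ha using hdvd
  have ha_not : ∀ η ∈ nthRootsFinset p (1 : R), η ≠ 1 → ¬ (ζ - 1) ∣ a η := by
    intro η hη hne hd
    obtain ⟨u, hu⟩ := exists_unit_sub_eq hp hζ hη h1mem hne
    have h1 : (ζ - 1) ^ 2 ∣ x + η * y := by
      rw [ha η hη, pow_two]; exact mul_dvd_mul_left _ hd
    have h2 : (ζ - 1) ^ 2 ∣ (x + η * y) - (x + y) := dvd_sub h1 hsq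
    have h3 : (x + η * y) - (x + y) = (ζ - 1) * (u * y) := by
      rw [← mul_assoc, ← hu]; ring
    rw [h3, pow_two] at h2
    have h4 := (mul_dvd_mul_iff_left hπ.ne_zero).1 h2
    exact hy (Units.dvd_mul_left.1 h4)
  have ha1 : (ζ - 1) ∣ a 1 := by
    have h1 := ha 1 h1mem
    rw [one_mul] at h1
    rw [h1, pow_two] at hsq
    exact (mul_dvd_mul_iff_left hπ.ne_zero).1 hsq
  have hacop : ∀ η₁ ∈ nthRootsFinset p (1 : R), ∀ η₂ ∈ nthRootsFinset p (1 : R), η₁ ≠ η₂ →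
      IsCoprime (a η₁) (a η₂) := fun η₁ h₁ η₂ h₂ hne =>
    isCoprime_quot hp hζ hπ hcop h₁ h₂ hne (ha η₁ h₁) (ha η₂ h₂)
  -- Step (iv): the product
  have hprod : ∏ η ∈ nthRootsFinset p (1 : R), a η = ε * (ζ - 1) ^ (p * m) * z ^ p := by
    have h1 : ∏ η ∈ nthRootsFinset p (1 : R), (x + η * y) =
        (ζ - 1) ^ p * ∏ η ∈ nthRootsFinset p (1 : R), a η := by
      rw [Finset.prod_congr rfl ha, Finset.prod_mul_distrib, Finset.prod_const,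
        hζ.card_nthRootsFinset]
    have h2 := hζ.pow_add_pow_eq_prod_add_mul x y hoddp
    rw [h1, heq] at h2
    apply mul_left_cancel₀ (pow_ne_zero p hπ.ne_zero)
    rw [← h2]; ring
  obtain ⟨S, hS⟩ : ∃ S, S = nthRootsFinset p (1 : R) := ⟨_, rfl⟩
  rw [← hS] at hprod hacop ha_not ha h1mem
  obtain ⟨b, hb⟩ : ∃ b, b = ∏ η ∈ S.erase 1, a η := ⟨_, rfl⟩
  have hab : a 1 * b = ε * (ζ - 1) ^ (p * m) * z ^ p := by
    rw [hb, Finset.mul_prod_erase S a h1mem, hprod]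
  have hb_not : ¬ (ζ - 1) ∣ b := by
    intro h
    rw [hb] at h
    obtain ⟨η, hη, hd⟩ := (hπ.dvd_finsetProd_iff _).1 h
    exact ha_not η (Finset.mem_of_mem_erase hη) (Finset.ne_of_mem_erase hη) hd
  have hπb : IsCoprime ((ζ - 1) ^ (p * m)) b :=
    ((Prime.coprime_iff_not_dvd hπ).2 hb_not).pow_left
  obtain ⟨c, hc⟩ : (ζ - 1) ^ (p * m) ∣ a 1 :=
    hπb.dvd_of_dvd_mul_right (by rw [hab]; exact ⟨ε * z ^ p, by ring⟩)
  have hcb : c * b = ε * z ^ p := by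
    apply mul_left_cancel₀ (pow_ne_zero (p * m) hπ.ne_zero)
    rw [← mul_assoc, ← hc, hab]; ring
  have hc_not : ¬ (ζ - 1) ∣ c := by
    intro h
    have h1 : (ζ - 1) ∣ ε * z ^ p := by rw [← hcb]; exact Dvd.dvd.mul_right h _
    exact hz (hπ.dvd_of_dvd_pow (Units.dvd_mul_left.1 h1))
  have hm : 1 ≤ m := by
    by_contra hm0
    have hm' : m = 0 := by omega
    subst hm'
    simp only [mul_zero, pow_zero, one_mul] at hc
    exact hc_not (hc ▸ ha1)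
  refine ⟨hm, ?_⟩
  -- Step (v): `p`-th powers
  have hcop_c_b : IsCoprime c b := by
    have h1 : IsCoprime (a 1) b := by
      rw [hb]
      exact IsCoprime.prod_right (fun η hη => hacop 1 h1mem η (Finset.mem_of_mem_erase hη)
        (Finset.ne_of_mem_erase hη).symm)
    rw [hc] at h1
    exact h1.of_mul_left_right
  obtain ⟨ρ₀, u₀, hρ₀⟩ : ∃ ρ₀, Associated (ρ₀ ^ p) c :=
    exists_associated_pow_of_associated_pow_mul hcop_c_b (c := z)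
      (by rw [hcb]; exact associated_unit_mul_right _ _ ε.isUnit)
  have key : ∀ η ∈ S, ∃ ρ, Associated (ρ ^ p) (a η) := by
    intro η hη
    have h1 : a η * ∏ η' ∈ S.erase η, a η' = ε * ((ζ - 1) ^ m * z) ^ p := by
      rw [Finset.mul_prod_erase S a hη, hprod]; ring
    have h2 : IsCoprime (a η) (∏ η' ∈ S.erase η, a η') :=
      IsCoprime.prod_right (fun η' hη' => hacop η hη η' (Finset.mem_of_mem_erase hη')
        (Finset.ne_of_mem_erase hη').symm)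
    exact exists_associated_pow_of_associated_pow_mul h2 (c := (ζ - 1) ^ m * z)
      (by rw [h1]; exact associated_unit_mul_right _ _ ε.isUnit)
  -- the roots `ζ` and `ζ ^ (p - 1)`
  have hζmem : ζ ∈ S := by rw [hS]; exact (mem_nthRootsFinset hp0 1).2 hζ.pow_eq_one
  have hζ'mem : ζ ^ (p - 1) ∈ S := by
    rw [hS]
    exact (mem_nthRootsFinset hp0 1).2
      (by rw [← pow_mul, mul_comm, pow_mul, hζ.pow_eq_one, one_pow])
  have hp2 : 2 < p := lt_of_le_of_ne hp.two_le (Ne.symm hodd)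
  have hζne1 : ζ ≠ 1 := hζ.ne_one hp.one_lt
  have hζ'ne1 : ζ ^ (p - 1) ≠ 1 := hζ.pow_ne_one_of_pos_of_lt (by omega) (by omega)
  have hζζ' : ζ * ζ ^ (p - 1) = 1 := by
    rw [← pow_succ', Nat.sub_add_cancel hp.one_le, hζ.pow_eq_one]
  have hζneζ' : ζ ≠ ζ ^ (p - 1) := by
    intro h
    have h2 : ζ ^ 2 = 1 := by
      rw [pow_two]; nth_rewrite 2 [h]; exact hζζ'
    exact hζ.pow_ne_one_of_pos_of_lt (by norm_num) hp2 h2
  obtain ⟨ρ₁, u₁, hρ₁⟩ := key ζ hζmem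
  obtain ⟨ρ₂, u₂, hρ₂⟩ := key _ hζ'mem
  -- Step (vi): the linear relation
  have hrel : a ζ + ζ * a (ζ ^ (p - 1)) = (1 + ζ) * a 1 := by
    apply mul_left_cancel₀ hπ.ne_zero
    have e1 := ha ζ hζmem
    have e2 := ha _ hζ'mem
    have e3 := ha 1 h1mem
    calc (ζ - 1) * (a ζ + ζ * a (ζ ^ (p - 1)))
        = (ζ - 1) * a ζ + ζ * ((ζ - 1) * a (ζ ^ (p - 1))) := by ring
      _ = (x + ζ * y) + ζ * (x + ζ ^ (p - 1) * y) := by rw [e1, e2]
      _ = (1 + ζ) * (x + 1 * y) + (ζ * ζ ^ (p - 1) - 1) * y := by ring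
      _ = (1 + ζ) * ((ζ - 1) * a 1) := by rw [hζζ', e3]; ring
      _ = (ζ - 1) * ((1 + ζ) * a 1) := by ring
  have hζu : IsUnit ζ := hζ.isUnit hp.ne_zero
  have h1ζ : IsUnit (1 + ζ) := by
    have h2 := hζ.geom_sum_isUnit hp.two_le
      (j := 2) ((Nat.coprime_primes Nat.prime_two hp).2 (Ne.symm hodd))
    simpa [Finset.sum_range_succ] using h2
  obtain ⟨uζ, huζ⟩ := hζu
  obtain ⟨w, hw⟩ := h1ζ
  -- the new equation
  obtain ⟨η, hη⟩ : ∃ η : Rˣ, η = uζ * u₂ * u₁⁻¹ := ⟨_, rfl⟩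
  obtain ⟨ε', hε'⟩ : ∃ ε' : Rˣ, ε' = w * u₀ * u₁⁻¹ := ⟨_, rfl⟩
  have hnew : ρ₁ ^ p + (η : R) * ρ₂ ^ p = (ε' : R) * (ζ - 1) ^ (p * m) * ρ₀ ^ p := by
    have e1 : (↑u₁⁻¹ : R) * (a ζ + ζ * a (ζ ^ (p - 1))) =
        ↑u₁⁻¹ * ((1 + ζ) * a 1) := by rw [hrel]
    rw [← hρ₁, ← hρ₂, hc, ← hρ₀] at e1
    have e2 : (↑u₁⁻¹ : R) * (ρ₁ ^ p * ↑u₁ + ζ * (ρ₂ ^ p * ↑u₂)) =
        (↑u₁⁻¹ * ↑u₁) * ρ₁ ^ p + (ζ * ↑u₂ * ↑u₁⁻¹) * ρ₂ ^ p := by ring
    rw [e2] at e1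
    simp only [Units.inv_mul, one_mul] at e1
    rw [hη, hε']
    push_cast
    rw [huζ, hw, e1]; ring
  -- Step (vii): the unit is congruent to an integer mod `p`
  have hρ₂_not : ¬ (ζ - 1) ∣ ρ₂ := by
    intro h
    apply ha_not _ hζ'mem hζ'ne1
    rw [← hρ₂]
    exact Dvd.dvd.mul_right (Dvd.dvd.trans h (dvd_pow_self _ hp.ne_zero)) _
  have hρ₀_not : ¬ (ζ - 1) ∣ ρ₀ := by
    intro h
    apply hc_not
    rw [← hρ₀]
    exact Dvd.dvd.mul_right (Dvd.dvd.trans h (dvd_pow_self _ hp.ne_zero)) _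
  have hcopρ : IsCoprime ρ₁ ρ₂ := by
    have h1 := hacop ζ hζmem _ hζ'mem hζneζ'
    rw [← hρ₁, ← hρ₂] at h1
    have h2 : IsCoprime (ρ₁ ^ p) (ρ₂ ^ p) := by
      have h3 := (isCoprime_mul_unit_right_left u₁.isUnit _ _).1 h1
      exact (isCoprime_mul_unit_right_right u₂.isUnit _ _).1 h3
    exact (IsCoprime.pow_iff hp0 hp0).1 h2
  have hpdvd : (p : R) ∣ (ζ - 1) ^ (p * m) :=
    hpπ.trans (pow_dvd_pow _ (by
      calc p - 1 ≤ p := Nat.sub_le _ _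
        _ = p * 1 := (mul_one p).symm
        _ ≤ p * m := Nat.mul_le_mul_left p hm))
  obtain ⟨n₁, hn₁⟩ := exists_int_sub_dvd hp hπ hπp hcard ρ₁
  obtain ⟨n₂, hn₂⟩ := exists_int_sub_dvd hp hπ hπp hcard ρ₂
  have hn₂p : ¬ (p : ℤ) ∣ n₂ := by
    intro h
    apply hρ₂_not
    have h1 := (pi_dvd_intCast_iff hp hπ hπp).2 h
    have e : ρ₂ = (ρ₂ - n₂) + n₂ := by ring
    rw [e]; exact dvd_add hn₂ h1
  have hn₂p' : ¬ (p : ℤ) ∣ n₂ ^ p := fun h =>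
    hn₂p ((Nat.prime_iff_prime_int.1 hp).dvd_of_dvd_pow h)
  obtain ⟨s, t, hst⟩ : IsCoprime (n₂ ^ p) (p : ℤ) :=
    ((Prime.coprime_iff_not_dvd (Nat.prime_iff_prime_int.1 hp)).2 hn₂p').symm
  have h1 := natCast_dvd_pow_sub_pow hp hpπ hn₁
  have h2 := natCast_dvd_pow_sub_pow hp hpπ hn₂
  have hcong : ∃ n : ℤ, (p : R) ∣ (η : R) - (n : R) := by
    refine ⟨-(s * n₁ ^ p), ?_⟩
    obtain ⟨k₁, hk₁⟩ := h1
    obtain ⟨k₂, hk₂⟩ := h2
    obtain ⟨k₃, hk₃⟩ := hpdvd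
    have hst' : (s : R) * (n₂ : R) ^ p + (t : R) * (p : R) = 1 := by
      exact_mod_cast congrArg (Int.cast : ℤ → R) hst
    have e1 : ρ₁ ^ p = (n₁ : R) ^ p + p * k₁ := by rw [← hk₁]; ring
    have e2 : ρ₂ ^ p = (n₂ : R) ^ p + p * k₂ := by rw [← hk₂]; ring
    rw [e1, e2, hk₃] at hnew
    refine ⟨(η : R) * t - s * (k₁ + (η : R) * k₂) + s * (ε' : R) * k₃ * ρ₀ ^ p, ?_⟩
    push_cast
    have e3 : (η : R) - -((s : R) * (n₁ : R) ^ p) =
        (η : R) * ((s : R) * (n₂ : R) ^ p + (t : R) * (p : R))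
        + (s : R) * (n₁ : R) ^ p := by rw [hst']; ring
    rw [e3]
    have e4 : (n₁ : R) ^ p = (ε' : R) * (↑p * k₃) * ρ₀ ^ p - ↑p * k₁
        - (η : R) * ((n₂ : R) ^ p + ↑p * k₂) := by rw [← hnew]; ring
    rw [e4]; ring
  obtain ⟨v, hv⟩ := hK _ hcong
  refine ⟨ρ₁, v * ρ₂, ρ₀, ε', ?_, ?_, hρ₀_not, ?_⟩
  · exact (isCoprime_mul_unit_left_right v.isUnit _ _).2 hcopρ
  · exact fun h => hρ₂_not (Units.dvd_mul_left.1 h)
  · rw [mul_pow, ← hnew, hv]; push_cast; ring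

/-- No solution of the generalized equation. -/
theorem not_genSol [IsPrincipalIdealRing R] (hp : p.Prime) (hodd : p ≠ 2)
    (hζ : IsPrimitiveRoot ζ p) (hπ : Prime (ζ - 1))
    (hcard : Nat.card (R ⧸ Ideal.span {ζ - 1}) = p) (hπp : (ζ - 1) ∣ (p : R))
    (hpπ : (p : R) ∣ (ζ - 1) ^ (p - 1)) (hK : KummerProp R p) (m : ℕ) :
    ¬ GenSol ζ p (m + 1) := by
  induction m with
  | zero =>
    intro h
    have := (genSol_descent hp hodd hζ hπ hcard hπp hpπ hK h).1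
    omega
  | succ m ih =>
    intro h
    exact ih (genSol_descent hp hodd hζ hπ hcard hπp hpπ hK h).2

end descent

end Fermat.Agent.H9
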