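import Mathlib
import Fermat.Agent.H9.Descent

/-!
# The second case of Fermat's Last Theorem for a prime `p` such that `ℤ[ζ_p]` is a PID and
Kummer's lemma holds.
-/

set_option linter.unusedSectionVars false
set_option linter.style.haveILetI false
set_option linter.unusedVariables false

open NumberField

namespace Fermat.Agent.H9

/-- From coprimality of `a, b` and the Fermat equation, `a, c` and `b, c` are coprime. -/
lemma isCoprime_of_fermat {p : ℕ} (hp0 : 0 < p) {a b c : ℤ} (hab : IsCoprime a b)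
    (h : a ^ p + b ^ p = c ^ p) : IsCoprime a c ∧ IsCoprime b c := by
  have h1 : IsCoprime (a ^ p) (b ^ p) := hab.pow
  constructor
  · have h2 : IsCoprime (a ^ p) (c ^ p) := by
      rw [← h]
      have := h1.add_mul_left_right 1
      rwa [mul_one, add_comm] at this
    exact (IsCoprime.pow_iff hp0 hp0).1 h2
  · have h2 : IsCoprime (b ^ p) (c ^ p) := by
      rw [← h]
      have := h1.symm.add_mul_left_right 1
      rwa [mul_one] at this
    exact (IsCoprime.pow_iff hp0 hp0).1 h2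

section

variable {p : ℕ} [hpri : Fact p.Prime] {K : Type*} [Field K] [NumberField K]
  [IsCyclotomicExtension {p} ℚ K]

/-- Second case, with `p ∣ c`. -/
theorem caseII_aux (hodd : p ≠ 2) [IsPrincipalIdealRing (𝓞 K)] (hK : KummerProp (𝓞 K) p)
    {a b c : ℤ} (hab : IsCoprime a b) (hc : c ≠ 0) (hpc : (p : ℤ) ∣ c)
    (h : a ^ p + b ^ p = c ^ p) : False := by
  have hp := hpri.out
  have hp0 : 0 < p := hp.pos
  have hζ := IsCyclotomicExtension.zeta_spec p ℚ K
  have hζ' := hζ.toInteger_isPrimitiveRoot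
  have hπ : Prime (hζ.toInteger - 1) := hζ.zeta_sub_one_prime'
  have hcard : Nat.card (𝓞 K ⧸ Ideal.span {hζ.toInteger - 1}) = p := by
    rw [IsPrimitiveRoot.card_quotient_toInteger_sub_one,
      hζ.norm_toInteger_sub_one_of_prime_ne_two' hodd]
    simp
  have hπp : (hζ.toInteger - 1) ∣ (p : 𝓞 K) := hζ.toInteger_sub_one_dvd_prime'
  have hassoc := IsCyclotomicExtension.Rat.associated_zeta_sub_one_pow_prime p hζ
  have hpπ : (p : 𝓞 K) ∣ (hζ.toInteger - 1) ^ (p - 1) := hassoc.symm.dvd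
  obtain ⟨u, hu⟩ := hassoc
  -- write `c = p ^ k * c'`
  have hfin : FiniteMultiplicity (p : ℤ) c :=
    Int.finiteMultiplicity_iff.2 ⟨by simpa using hp.ne_one, hc⟩
  obtain ⟨c', hc', hpc'⟩ := hfin.exists_eq_pow_mul_and_not_dvd
  obtain ⟨k, hk⟩ : ∃ k, k = multiplicity (p : ℤ) c := ⟨_, rfl⟩
  rw [← hk] at hc'
  have hk1 : 1 ≤ k := by
    by_contra hk0
    have : k = 0 := by omega
    rw [this, pow_zero, one_mul] at hc'
    exact hpc' (hc' ▸ hpc)
  have hbc := (isCoprime_of_fermat hp0 hab h).2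
  have hpb : ¬ (p : ℤ) ∣ b := by
    intro hb
    obtain ⟨r, s, hrs⟩ := hbc
    have : (p : ℤ) ∣ 1 := by
      rw [← hrs]
      exact dvd_add (Dvd.dvd.mul_left hb _) (Dvd.dvd.mul_left hpc _)
    exact (Nat.prime_iff_prime_int.1 hp).not_dvd_one this
  have hm : ∃ m, (p - 1) * k = m + 1 := by
    have h2 : 1 ≤ p - 1 := by have := hp.two_le; omega
    have : 1 ≤ (p - 1) * k := Nat.one_le_iff_ne_zero.2 (Nat.mul_ne_zero (by omega) (by omega))
    exact ⟨(p - 1) * k - 1, by omega⟩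
  obtain ⟨m, hm⟩ := hm
  refine not_genSol hp hodd hζ' hπ hcard hπp hpπ hK m ?_
  refine ⟨(a : 𝓞 K), (b : 𝓞 K), (c' : 𝓞 K), u ^ (k * p), IsCoprime.intCast hab, ?_, ?_, ?_⟩
  · rw [pi_dvd_intCast_iff hp hπ hπp]; exact hpb
  · rw [pi_dvd_intCast_iff hp hπ hπp]; exact hpc'
  · have e1 : ((a : 𝓞 K)) ^ p + (b : 𝓞 K) ^ p = (c : 𝓞 K) ^ p := by exact_mod_cast congrArg (Int.cast : ℤ → 𝓞 K) h
    rw [e1, hc', ← hm]
    push_cast
    rw [← hu]
    ring

/-- Second case of Fermat's Last Theorem for `p`. -/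
theorem caseII_of_kummer (hodd : p ≠ 2) [IsPrincipalIdealRing (𝓞 K)] (hK : KummerProp (𝓞 K) p)
    {a b c : ℤ} (habc : a * b * c ≠ 0) (hab : IsCoprime a b) (h : a ^ p + b ^ p = c ^ p)
    (hdvd : (p : ℤ) ∣ a * b * c) : False := by
  have hp := hpri.out
  have hp0 : 0 < p := hp.pos
  have hoddp : Odd p := hp.odd_of_ne_two hodd
  have ha0 : a ≠ 0 := fun h0 => habc (by simp [h0])
  have hb0 : b ≠ 0 := fun h0 => habc (by simp [h0])
  have hc0 : c ≠ 0 := fun h0 => habc (by simp [h0])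
  obtain ⟨hac, hbc⟩ := isCoprime_of_fermat hp0 hab h
  have hpp := Nat.prime_iff_prime_int.1 hp
  rcases hpp.dvd_or_dvd hdvd with h1 | h1
  · rcases hpp.dvd_or_dvd h1 with h2 | h2
    · -- p ∣ a : c ^ p + (-b) ^ p = a ^ p
      refine caseII_aux (K := K) hodd hK (a := c) (b := -b) (c := a) hbc.symm.neg_right ha0 h2 ?_
      rw [hoddp.neg_pow, ← h]; ring
    · -- p ∣ b
      refine caseII_aux (K := K) hodd hK (a := c) (b := -a) (c := b) hac.symm.neg_right hb0 h2 ?_
      rw [hoddp.neg_pow, ← h]; ring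
  · exact caseII_aux (K := K) hodd hK hab hc0 h1 h

end

end Fermat.Agent.H9
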