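import Mathlib
import Fermat.Prelude.Def_FLTPrelim_FreyPackage
import Fermat.Agent.H9.CaseII
import Fermat.Agent.H44.SophieGermainSmall

/-!
# Assembly: a Frey package with `p ∈ {5, 7, 11, 13}` does not exist, provided that the ring of
integers of the `p`-th cyclotomic field is a PID and Kummer's lemma holds for it.
-/

set_option autoImplicit false

open NumberField

namespace Fermat.Agent.H9

/-- No Frey package with exponent `p ∈ {5, 7, 11, 13}`, given PID and Kummer's lemma for `p`. -/
theorem freyPackage_false_of (P : FreyPackage) (hp : P.p = 5 ∨ P.p = 7 ∨ P.p = 11 ∨ P.p = 13)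
    (K : Type) [Field K] [NumberField K] [IsCyclotomicExtension {P.p} ℚ K]
    (hpid : IsPrincipalIdealRing (𝓞 K)) (hK : KummerProp (𝓞 K) P.p) : False := by
  haveI : Fact P.p.Prime := ⟨P.pp⟩
  have hodd : P.p ≠ 2 := by have := P.hp5; omega
  have hab : IsCoprime P.a P.b := by
    rw [← gcd_isUnit_iff, P.hgcdab]; exact isUnit_one
  exact caseII_of_kummer (K := K) hodd hK P.habc0 hab P.hFLT
    (Fermat.Agent.H44.freyPackage_caseI_small P hp)

/-- Variant for a concrete exponent `q`. -/
theorem freyPackage_false_of_eq (P : FreyPackage) (q : ℕ) (hq : P.p = q)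
    (hq' : q = 5 ∨ q = 7 ∨ q = 11 ∨ q = 13)
    (K : Type) [Field K] [NumberField K] [IsCyclotomicExtension {q} ℚ K]
    (hpid : IsPrincipalIdealRing (𝓞 K)) (hK : KummerProp (𝓞 K) q) : False := by
  subst hq
  exact freyPackage_false_of P hq' K hpid hK

end Fermat.Agent.H9
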